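import Fermat.Agent.ES.D.Adic.Conj
import Fermat.Agent.S31.Cyclo

/-!
# S41 / Sel / Kum : an element of `G_ℚ` fixing all roots of unity and moving `r^(1/p)`; Frobenius and `r^(1/p)`

`c` = complex conjugation, `β` = the real `p`-th root of `r`, `τ` with `τ β ≠ β` (`β ∉ ℚ`).  The commutator `u₀ = τ⁻¹ c⁻¹ τ c` fixes all roots of unity and
`u₀ β = β ⟺ c (τ β) = τ β ⟺ τ β` real `⟺ τ β = β` (a real number has at most one real `p`-th root, `p` odd).
-/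

set_option autoImplicit false

namespace Fermat.Agent.S41.Sel

open Fermat.Agent.ES (Qb GQ)
open Fermat.Agent.ES.D

/-- TASK S41/Sel-Kum-a.  `ρ := ((r : ℝ) ^ (1 / p : ℝ) : ℝ)`, `ρ ^ p = r` (`Real.rpow_natCast`, `Real.rpow_mul`..; or `Real.exists_pow...`/`IsAlgClosed`-free: `∃ x : ℝ, 0 ≤ x ∧ x ^ p = r` from `Real.rpow_inv_natCast_pow`).
Pick any `β₀ : Qb` with `β₀ ^ p = r` (`IsAlgClosed.exists_pow_nat_eq`) and `ζ` a primitive `p`-th root of unity in `Qb` (`HasEnoughRootsOfUnity.exists_primitiveRoot Qb p`).  If `r = 0` take `β = 0`.  Otherwise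
`((ρ : ℂ) / complexEmbedding β₀) ^ p = 1` and `complexEmbedding ζ` is primitive (`IsPrimitiveRoot.map_of_injective`), so `(ρ : ℂ) / complexEmbedding β₀ = complexEmbedding ζ ^ i` (`IsPrimitiveRoot.eq_pow_of_pow_eq_one`); `β := β₀ * ζ ^ i`. -/
theorem exists_real_root (p r : ℕ) (hp : p ≠ 0) :
    ∃ (β : Qb) (x : ℝ), β ^ p = (r : Qb) ∧ complexEmbedding β = (x : ℂ) := by
  classical
  by_cases hr : r = 0
  · subst hr
    exact ⟨0, 0, by simp [hp], by simp⟩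
  have : NeZero p := ⟨hp⟩
  obtain ⟨β₀, hβ₀⟩ := IsAlgClosed.exists_pow_nat_eq (r : Qb) (Nat.pos_of_ne_zero hp)
  obtain ⟨ζ, hζ⟩ := HasEnoughRootsOfUnity.exists_primitiveRoot Qb p
  set ρ : ℝ := (r : ℝ) ^ ((p : ℝ)⁻¹) with hρ
  have hρp : ρ ^ p = (r : ℝ) := Real.rpow_inv_natCast_pow (Nat.cast_nonneg r) hp
  have hβ₀0 : β₀ ≠ 0 := by
    intro h
    rw [h, zero_pow hp] at hβ₀
    exact hr (by exact_mod_cast hβ₀.symm)
  have hinj : Function.Injective (complexEmbedding : Qb → ℂ) := complexEmbedding.toRingHom.injective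
  have he0 : complexEmbedding β₀ ≠ 0 := by
    intro h
    exact hβ₀0 (hinj (by rw [h, map_zero]))
  have hep : (complexEmbedding β₀) ^ p = (r : ℂ) := by
    rw [← map_pow, hβ₀, map_natCast]
  have h1 : ((ρ : ℂ) / complexEmbedding β₀) ^ p = 1 := by
    rw [div_pow, hep, ← Complex.ofReal_pow, hρp, Complex.ofReal_natCast]
    exact div_self (by exact_mod_cast hr)
  have hζ' : IsPrimitiveRoot (complexEmbedding ζ) p := hζ.map_of_injective hinj
  obtain ⟨i, -, hi⟩ := hζ'.eq_pow_of_pow_eq_one h1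
  refine ⟨β₀ * ζ ^ i, ρ, ?_, ?_⟩
  · rw [mul_pow, hβ₀, ← pow_mul, mul_comm i p, pow_mul, hζ.pow_eq_one, one_pow, mul_one]
  · rw [map_mul, map_pow, hi, mul_div_cancel₀ _ he0]

/-- TASK S41/Sel-Kum-a.  `complexEmbedding` is injective; `complexEmbedding_complexConjugation`, `Complex.conj_eq_iff_real`: `complexEmbedding β' = (y : ℂ)`; `x ^ p = r = y ^ p` in `ℝ` (`Complex.ofReal_injective`, `push_cast`), `Odd.pow_left_injective` (or `Odd.strictMono_pow`). -/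
theorem eq_of_real {p r : ℕ} (hp : Odd p) {β β' : Qb} {x : ℝ} (hβ : β ^ p = (r : Qb))
    (hx : complexEmbedding β = (x : ℂ)) (hβ' : β' ^ p = (r : Qb))
    (hc : complexConjugation β' = β') : β' = β := by
  have hinj : Function.Injective (complexEmbedding : Qb → ℂ) := complexEmbedding.toRingHom.injective
  have h1 : (starRingEnd ℂ) (complexEmbedding β') = complexEmbedding β' := by
    rw [← complexEmbedding_complexConjugation, hc]
  obtain ⟨y, hy⟩ := Complex.conj_eq_iff_real.1 h1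
  have hxp : x ^ p = (r : ℝ) := by
    apply Complex.ofReal_injective
    rw [Complex.ofReal_pow, ← hx, ← map_pow, hβ, map_natCast, Complex.ofReal_natCast]
  have hyp : y ^ p = (r : ℝ) := by
    apply Complex.ofReal_injective
    rw [Complex.ofReal_pow, ← hy, ← map_pow, hβ', map_natCast, Complex.ofReal_natCast]
  have hxy : y = x := hp.strictMono_pow.injective (hyp.trans hxp.symm)
  apply hinj
  rw [hy, hx, hxy]

/-- TASK S41/Sel-Kum-b.  If `τ β = β` for all `τ` then `β = algebraMap ℚ Qb b` (`IsGalois.mem_bot_iff_fixed` / `InfiniteGalois`, or search the repository for "fixed by all of GQ implies rational": e.g. `S12.Real.prod_mem_rat`, `S15.A` `..mem_rat..`, `S13`), so `b ^ p = r` in `ℚ`;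
`padicValRat r`: `p * padicValRat r b = 1` (`padicValRat.pow`, `padicValRat.self`), impossible for `p ≥ 2` (`Int.isUnit_iff`/`omega` after `Int.eq_one_or_neg_one_of_mul_eq_one`). -/
theorem exists_move {p r : ℕ} (hp : 2 ≤ p) (hr : r.Prime) {β : Qb} (hβ : β ^ p = (r : Qb)) :
    ∃ τ : GQ, τ β ≠ β := by
  by_contra hcon
  push Not at hcon
  have hcl : IsAlgClosure ℚ Qb :=
    (inferInstance : @IsAlgClosure ℚ (AlgebraicClosure ℚ) _ _ (AlgebraicClosure.instAlgebra ℚ) _)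
  have hgal : IsGalois ℚ (AlgebraicClosure ℚ) := (inferInstance : IsGalois ℚ Qb)
  obtain ⟨b, rfl⟩ :=
    (InfiniteGalois.mem_range_algebraMap_iff_fixed (k := ℚ) (K := AlgebraicClosure ℚ) β).2 hcon
  have hb : b ^ p = (r : ℚ) := by
    apply (algebraMap ℚ Qb).injective
    rw [map_pow, hβ, map_natCast]
  have : Fact r.Prime := ⟨hr⟩
  have hb0 : b ≠ 0 := by
    rintro rfl
    rw [zero_pow (by omega)] at hb
    exact hr.ne_zero (by exact_mod_cast hb.symm)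
  have h1 : padicValRat r (b ^ p) = 1 := by
    rw [hb]
    exact padicValRat.self hr.one_lt
  rw [padicValRat.pow] at h1
  have h2 : (p : ℤ) ∣ 1 := ⟨_, h1.symm⟩
  have h3 : p ∣ 1 := by exact_mod_cast h2
  have := Nat.le_of_dvd one_pos h3
  omega

/-- TASK S41/Sel-Kum-b.  `z` is a power of a primitive `n`-th root `ζ`; `a ζ = ζ ^ i`, `b ζ = ζ ^ j` (`IsPrimitiveRoot.eq_pow_of_pow_eq_one`), so `a (b ζ) = ζ ^ (i j) = b (a ζ)`; apply `a⁻¹ b⁻¹`.  (`AlgEquiv.mul_apply`, `AlgEquiv.symm_apply_apply`; `a⁻¹ = a.symm`.) -/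
theorem comm_apply_root (a b : GQ) {n : ℕ} (hn : n ≠ 0) {z : Qb} (hz : z ^ n = 1) :
    (a⁻¹ * b⁻¹ * a * b) z = z := by
  have : NeZero n := ⟨hn⟩
  obtain ⟨ζ, hζ⟩ := HasEnoughRootsOfUnity.exists_primitiveRoot Qb n
  obtain ⟨k, -, rfl⟩ := hζ.eq_pow_of_pow_eq_one hz
  obtain ⟨i, -, hi⟩ := hζ.eq_pow_of_pow_eq_one
    (show (a ζ) ^ n = 1 by rw [← map_pow, hζ.pow_eq_one, map_one])
  obtain ⟨j, -, hj⟩ := hζ.eq_pow_of_pow_eq_one
    (show (b ζ) ^ n = 1 by rw [← map_pow, hζ.pow_eq_one, map_one])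
  have hab : a (b (ζ ^ k)) = b (a (ζ ^ k)) := by
    rw [map_pow b, map_pow a ζ, ← hi, ← hj, map_pow a, map_pow a, map_pow b, map_pow b, ← hi, ← hj,
      ← pow_mul ζ i j, ← pow_mul ζ j i, mul_comm i j]
  have h1 : (a⁻¹ * b⁻¹ * a * b) (ζ ^ k) = a⁻¹ (b⁻¹ (a (b (ζ ^ k)))) := rfl
  rw [h1, hab]
  have h2 : b⁻¹ (b (a (ζ ^ k))) = a (ζ ^ k) := b.symm_apply_apply _
  rw [h2]
  exact a.symm_apply_apply _

/-- **the mover.**  TASK S41/Sel-Kum-c.  `exists_real_root`, `exists_move`, `u₀ := τ⁻¹ * c⁻¹ * τ * c`, `c := complexConjugation`; `c β = β` (injectivity of `complexEmbedding`, `Complex.conj_ofReal`);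
if `u₀ β = β` then `c⁻¹ (τ β) = τ β`, so `c (τ β) = τ β`, `eq_of_real` gives `τ β = β`. -/
theorem exists_mover {p r : ℕ} (hp : p.Prime) (hp2 : p ≠ 2) (hr : r.Prime) :
    ∃ (β : Qb) (u₀ : GQ), β ^ p = (r : Qb) ∧ (∀ n : ℕ, n ≠ 0 → ∀ z : Qb, z ^ n = 1 → u₀ z = z) ∧
      u₀ β ≠ β := by
  obtain ⟨β, x, hβ, hx⟩ := exists_real_root p r hp.ne_zero
  obtain ⟨τ, hτ⟩ := exists_move hp.two_le hr hβ
  have hodd : Odd p := hp.odd_of_ne_two hp2
  have hcβ : complexConjugation β = β := by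
    apply complexEmbedding.toRingHom.injective
    change complexEmbedding (complexConjugation β) = complexEmbedding β
    rw [complexEmbedding_complexConjugation, hx, Complex.conj_ofReal]
  refine ⟨β, τ⁻¹ * complexConjugation⁻¹ * τ * complexConjugation, hβ,
    fun n hn z hz => comm_apply_root τ complexConjugation hn hz, fun h => ?_⟩
  rw [complexConjugation_inv] at h
  have h1 : τ⁻¹ (complexConjugation (τ (complexConjugation β))) = β := h
  rw [hcβ] at h1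
  have h2 : complexConjugation (τ β) = τ β := by
    have h3 := congrArg τ h1
    have h4 : τ (τ⁻¹ (complexConjugation (τ β))) = complexConjugation (τ β) := by
      change (τ * τ⁻¹) (complexConjugation (τ β)) = _
      rw [mul_inv_cancel]
      rfl
    rw [h4] at h3
    exact h3
  have hτβ : (τ β) ^ p = (r : Qb) := by
    rw [← map_pow, hβ, map_natCast]
  exact hτ (eq_of_real hodd hβ hx hτβ h2)

/-- TASK S41/Sel-Kum-d.  `ω := u β / β`, `ω ^ p = 1`, `ω ≠ 1`, `u ω = ω`.  `(u * h) β = u β`.  `(u * u * h) β = u (u β) = u (ω β) = ω² β`; `ω² = 1` and `ω ^ p = 1`, `p` odd, give `ω = 1`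
(`p = 2 k + 1`: `ω = ω ^ p * (ω²)⁻¹ ^ k`...). `β ≠ 0` because `r ≠ 0`. -/
theorem not_fix_mul {p r : ℕ} (hp : Odd p) (hr : r ≠ 0) {β : Qb} (hβ : β ^ p = (r : Qb)) (u h : GQ)
    (hu : ∀ z : Qb, z ^ p = 1 → u z = z) (huβ : u β ≠ β) (hh : h β = β) :
    (u * h) β ≠ β ∧ (u * u * h) β ≠ β := by
  have hβ0 : β ≠ 0 := by
    rintro rfl
    rw [zero_pow (by rcases hp with ⟨k, rfl⟩; omega)] at hβ
    exact hr (by exact_mod_cast hβ.symm)
  obtain ⟨ω, huβ'⟩ : ∃ ω : Qb, u β = ω * β := ⟨u β / β, by rw [div_mul_cancel₀ _ hβ0]⟩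
  have hr' : (r : Qb) ≠ 0 := by exact_mod_cast hr
  have hω : ω ^ p = 1 := by
    have h1 : (u β) ^ p = (r : Qb) := by rw [← map_pow, hβ, map_natCast]
    rw [huβ', mul_pow, hβ] at h1
    exact mul_right_cancel₀ hr' (by rw [h1, one_mul])
  have huω : u ω = ω := hu _ hω
  have hω1 : ω ≠ 1 := by
    rintro rfl
    exact huβ (by rw [huβ', one_mul])
  refine ⟨?_, ?_⟩
  · change u (h β) ≠ β
    rw [hh]
    exact huβ
  · change u (u (h β)) ≠ β
    rw [hh, huβ', map_mul, huω, huβ']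
    intro h2
    have h4 : ω ^ 2 = 1 := by
      have h5 : ω ^ 2 * β = 1 * β := by
        rw [one_mul]
        calc ω ^ 2 * β = ω * (ω * β) := by ring
          _ = β := h2
      exact mul_right_cancel₀ hβ0 h5
    obtain ⟨k, hk⟩ := hp
    apply hω1
    have h6 : ω ^ p = ω := by
      rw [hk, pow_succ, pow_mul, h4, one_pow, one_mul]
    rw [← h6, hω]

/-- TASK S41/Sel-Kum-e.  `S31.frob_apply_root`: `ζ ^ ℓ = φ ζ = ζ = ζ ^ 1`; `S31.modEq_of_pow_eq`. -/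
theorem modEq_one_of_frob_fix (A : ValuationSubring Qb) {ℓ : ℕ} (hℓ : ℓ.Prime)
    (hA : A.LiesOverPrime ℓ) (φ : GQ) (hφ : A.IsFrobeniusAt φ ℓ) {n : ℕ} (hn : ¬ ℓ ∣ n) {ζ : Qb}
    (hζ : IsPrimitiveRoot ζ n) (h : φ ζ = ζ) : ℓ ≡ 1 [MOD n] := by
  have h1 := Fermat.Agent.S31.frob_apply_root A hℓ hA φ hφ hn hζ.pow_eq_one
  rw [h] at h1
  have hn0 : n ≠ 0 := fun h0 => hn (h0 ▸ dvd_zero ℓ)
  have hζ0 : ζ ≠ 0 := hζ.ne_zero hn0
  have h2 : ζ ^ (ℓ - 1) = 1 := by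
    have h3 : ζ ^ (ℓ - 1) * ζ = 1 * ζ := by
      rw [← pow_succ, Nat.sub_add_cancel hℓ.one_le, one_mul]
      exact h1.symm
    exact mul_right_cancel₀ hζ0 h3
  exact ((Nat.modEq_iff_dvd' hℓ.one_le).2 (hζ.dvd_of_pow_eq_one _ h2)).symm

/-- TASK S41/Sel-Kum-e.  `β ∈ A` (integral: `β ^ p = r ∈ A`; `ValuationSubring` is integrally closed, or `A.valuation β ^ p ≤ 1`), `β` is a unit of `A` (`r` is: `ℓ ∤ r`, Bezout `a r + b ℓ = 1`).
`ω := φ β / β`, `ω ^ p = 1`.  `φ β - β ^ ℓ ∈ A.nonunits` (`S31.frob_sub_pow_mem_nonunits`), `β ^ ℓ = β * (β ^ p) ^ ((ℓ - 1)/p) = β * r ^ ((ℓ - 1)/p)`, and `(r : Qb) ^ ((ℓ-1)/p) - 1 ∈ A.nonunits`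
[it is the cast of an integer divisible by `ℓ`: `(ZMod.natCast_eq_natCast_iff ..)`/`(ZMod.intCast_zmod_eq_zero_iff_dvd ..)`; `(ℓ : Qb) ∈ A.nonunits` is `hA`].  So `(ω - 1) β ∈ A.nonunits`, `ω - 1 ∈ A.nonunits`,
`S31.eq_of_sub_mem_nonunits A hℓ hA (¬ ℓ ∣ p) (ω ^ p = 1) (1 ^ p = 1)` gives `ω = 1`. -/
theorem frob_fix_of_pow_eq_one (A : ValuationSubring Qb) {ℓ : ℕ} (hℓ : ℓ.Prime)
    (hA : A.LiesOverPrime ℓ) (φ : GQ) (hφ : A.IsFrobeniusAt φ ℓ) {p r : ℕ} (hp : p.Prime)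
    (hℓp : ℓ ≠ p) (hℓr : ¬ ℓ ∣ r) (hpl : p ∣ ℓ - 1) {β : Qb} (hβ : β ^ p = (r : Qb))
    (h : (r : ZMod ℓ) ^ ((ℓ - 1) / p) = 1) : φ β = β := by
  have hvℓ : A.valuation (ℓ : Qb) < 1 := A.mem_nonunits_iff.1 hA
  have hvint : ∀ n : ℤ, A.valuation (n : Qb) ≤ 1 := fun n =>
    (A.valuation_le_one_iff _).mpr (intCast_mem A n)
  -- `r` is a unit
  have hvr : A.valuation (r : Qb) = 1 := by
    have hle : A.valuation (r : Qb) ≤ 1 := by
      have := hvint (r : ℤ)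
      rwa [Int.cast_natCast] at this
    refine le_antisymm hle (not_lt.1 fun hlt => ?_)
    have hcop : IsCoprime (ℓ : ℤ) (r : ℤ) := by
      rw [Nat.isCoprime_iff_coprime]
      exact (Nat.Prime.coprime_iff_not_dvd hℓ).2 hℓr
    obtain ⟨u, w, huw⟩ := hcop
    have h1 : (u : Qb) * (ℓ : Qb) + (w : Qb) * (r : Qb) = 1 := by
      exact_mod_cast congrArg (Int.cast : ℤ → Qb) huw
    have h2 : A.valuation ((u : Qb) * (ℓ : Qb) + (w : Qb) * (r : Qb)) < 1 := by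
      apply Valuation.map_add_lt
      · rw [map_mul]
        exact lt_of_le_of_lt (mul_le_of_le_one_left' (hvint u)) hvℓ
      · rw [map_mul]
        exact lt_of_le_of_lt (mul_le_of_le_one_left' (hvint w)) hlt
    rw [h1, map_one] at h2
    exact lt_irrefl _ h2
  have hvβ : A.valuation β = 1 := by
    have h1 : A.valuation β ^ p = 1 := by rw [← map_pow, hβ, hvr]
    exact (pow_eq_one_iff.1 h1).resolve_right hp.ne_zero
  have hβA : β ∈ A := (A.valuation_le_one_iff β).1 hvβ.le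
  have hβ0 : β ≠ 0 := by
    intro h0
    rw [h0, map_zero] at hvβ
    exact zero_ne_one hvβ
  have h1 : A.valuation (φ β - β ^ ℓ) < 1 :=
    A.mem_nonunits_iff.1 (Fermat.Agent.S31.frob_sub_pow_mem_nonunits A φ ℓ hφ hβA)
  have hℓeq : ℓ = 1 + p * ((ℓ - 1) / p) := by
    have := Nat.mul_div_cancel' hpl
    have := hℓ.one_lt
    omega
  have hpow : β ^ ℓ = β * (r : Qb) ^ ((ℓ - 1) / p) := by
    conv_lhs => rw [hℓeq]
    rw [pow_add, pow_one, pow_mul, hβ]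
  have h2 : A.valuation ((r : Qb) ^ ((ℓ - 1) / p) - 1) < 1 := by
    have h3 : ((r ^ ((ℓ - 1) / p) : ℕ) : ZMod ℓ) = ((1 : ℕ) : ZMod ℓ) := by
      push_cast
      exact h
    rw [ZMod.natCast_eq_natCast_iff, Nat.modEq_iff_dvd] at h3
    obtain ⟨c, hc⟩ := h3
    have h4 : (r : Qb) ^ ((ℓ - 1) / p) - 1 = -((ℓ : Qb) * (c : Qb)) := by
      have := congrArg (Int.cast : ℤ → Qb) hc
      push_cast at this
      linear_combination -this
    rw [h4, Valuation.map_neg, map_mul]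
    exact lt_of_le_of_lt (mul_le_of_le_one_right' (hvint c)) hvℓ
  have h5 : A.valuation (φ β - β) < 1 := by
    have h6 : φ β - β = (φ β - β ^ ℓ) + β * ((r : Qb) ^ ((ℓ - 1) / p) - 1) := by
      rw [hpow]
      ring
    rw [h6]
    apply Valuation.map_add_lt _ h1
    rw [map_mul, hvβ, one_mul]
    exact h2
  have hω : (φ β / β) ^ p = 1 := by
    rw [div_pow, ← map_pow, hβ, map_natCast]
    exact div_self (by rw [← hβ]; exact pow_ne_zero _ hβ0)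
  have h7 : φ β / β - 1 ∈ A.nonunits := by
    rw [A.mem_nonunits_iff]
    have h8 : φ β / β - 1 = (φ β - β) / β := by
      field_simp
    rw [h8, map_div₀, hvβ, div_one]
    exact h5
  have h9 := Fermat.Agent.S31.eq_of_sub_mem_nonunits A hℓ hA
    ((Nat.prime_dvd_prime_iff_eq hℓ hp).not.2 hℓp) hω (one_pow p) h7
  rwa [div_eq_one_iff_eq hβ0] at h9

/-- TASK S41/Sel-Kum-f.  Pure `ZMod ℓ`.  `x := (r : ZMod ℓ) ^ (2 * o)`, `d := orderOf x`.  `ℓ - 1 = 2 o p M₂`.  `x ^ (p * M₂) = r ^ (ℓ - 1) = 1` (`ZMod.pow_card_sub_one_eq_one`), so `d ∣ p * M₂` (`orderOf_dvd_of_pow_eq_one`).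
If `p ∤ d` then `d ∣ M₂` (`Nat.Coprime.dvd_of_dvd_mul_left`, `(Nat.Prime.coprime_iff_not_dvd hp).2`), so `x ^ M₂ = 1`, i.e. `r ^ (2 o M₂) = 1` and `2 o M₂ = (ℓ - 1)/p`: contradiction with `hne`. -/
theorem dvd_orderOf {ℓ p r o : ℕ} (hℓ : ℓ.Prime) (hp : p.Prime) (hdvd : 2 * o * p ∣ ℓ - 1)
    (hr : (r : ZMod ℓ) ≠ 0) (hne : (r : ZMod ℓ) ^ ((ℓ - 1) / p) ≠ 1) :
    p ∣ orderOf ((r : ZMod ℓ) ^ (2 * o)) := by
  have : Fact ℓ.Prime := ⟨hℓ⟩
  obtain ⟨M₂, hM⟩ := hdvd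
  by_contra hnd
  have h1 : ((r : ZMod ℓ) ^ (2 * o)) ^ (p * M₂) = 1 := by
    rw [← pow_mul, ← mul_assoc, ← hM]
    exact ZMod.pow_card_sub_one_eq_one hr
  have h2 : orderOf ((r : ZMod ℓ) ^ (2 * o)) ∣ p * M₂ := orderOf_dvd_of_pow_eq_one h1
  have h3 : orderOf ((r : ZMod ℓ) ^ (2 * o)) ∣ M₂ :=
    Nat.Coprime.dvd_of_dvd_mul_left ((Nat.Prime.coprime_iff_not_dvd hp).2 hnd).symm h2
  apply hne
  have h4 : (ℓ - 1) / p = 2 * o * M₂ := by
    rw [hM, mul_right_comm, Nat.mul_div_cancel _ hp.pos]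
  rw [h4, pow_mul]
  exact orderOf_dvd_iff_pow_eq_one.1 h3

end Fermat.Agent.S41.Sel
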