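import Fermat.Agent.S41.Sel.Abs
import Fermat.Agent.S41.Sel.Kum
import Fermat.Agent.S44.Soft.Approx
import Fermat.Agent.S44.VC.Main

/-!
# S41 / Sel / Main : the prime selection (block C of S41)

`exists_prime` : for all `m, o > 0` and every finite set `T` there is a prime `l ∉ T`, `l ≡ 1 mod m`, `p ∣ ord (r^(2o) mod l)`, `a_l(W) ≢ 2 mod p`.

`n := 2 o p m`.  `exists_sigma`: `σ ∈ G_ℚ` fixing `μ_n`, moving `β = r^(1/p)`, not unipotent on `E[p]` (`Abs.exists_nonunip`).  Frobenius density for the field generated by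
`ζ_n`, `β` and the coordinates of `E[p]`: `φ = Frob_l` generates the same cyclic group as `σ`, so it has the same three properties.
-/

set_option autoImplicit false
set_option linter.unusedVariables false

open WeierstrassCurve WeierstrassCurve.Affine WeierstrassCurve.Affine.Point

namespace Fermat.Agent.S41.Sel

open Fermat.Agent.ES (Qb GQ)
open Fermat.Agent.S58 Fermat.Agent.S44.Soft

/-- the subgroup of `G_ℚ` fixing the `n`-th roots of unity. -/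
def fixMu (n : ℕ) : Subgroup GQ where
  carrier := {σ | ∀ z : Qb, z ^ n = 1 → σ z = z}
  one_mem' := fun _ _ => rfl
  mul_mem' := by
    intro a b ha hb z hz
    rw [AlgEquiv.mul_apply, hb z hz, ha z hz]
  inv_mem' := by
    intro a ha z hz
    have h := ha z hz
    calc a⁻¹ z = a⁻¹ (a z) := by rw [h]
      _ = z := by rw [← AlgEquiv.mul_apply, inv_mul_cancel, AlgEquiv.one_apply]

theorem mem_fixMu {n : ℕ} {σ : GQ} : σ ∈ fixMu n ↔ ∀ z : Qb, z ^ n = 1 → σ z = z := Iff.rfl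

instance fixMu_normal (n : ℕ) : (fixMu n).Normal := by
  refine ⟨fun a ha g z hz => ?_⟩
  have h1 : (g⁻¹ z) ^ n = 1 := by rw [← map_pow, hz, map_one]
  rw [AlgEquiv.mul_apply, AlgEquiv.mul_apply, ha _ h1, ← AlgEquiv.mul_apply, mul_inv_cancel,
    AlgEquiv.one_apply]

/-- (CH) on `E[p]`. -/
theorem exists_CH {p : ℕ} [Fact p.Prime] (hp2 : p ≠ 2) (W : WeierstrassCurve ℤ) (hΔ : W.Δ ≠ 0) :
    ∃ t : GQ → ZMod p, CH (torRep W p) (om p) t := by
  classical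
  have h : ∀ g : GQ, ∃ t : ZMod p, torRep W p g + ((om p g : (ZMod p)ˣ) : ZMod p) • torRep W p g⁻¹
      = t • (1 : Module.End (ZMod p) (Tor W p)) := by
    intro g
    obtain ⟨ℓ, j, -, -, -, h, -⟩ := exists_approx hp2 1 W hΔ (insert p W.Δ.natAbs.primeFactors)
      (Finset.mem_insert_self _ _) (fun q hq h1 => absurd (Nat.dvd_one.1 h1) hq.ne_one)
      (fun q hq hd => Finset.mem_insert_of_mem (Nat.mem_primeFactors.2
        ⟨hq, Int.natCast_dvd.1 hd, Int.natAbs_ne_zero.2 hΔ⟩)) g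
    exact ⟨_, h⟩
  choose t ht using h
  exact ⟨t, ht⟩

theorem om_conj (p : ℕ) [Fact p.Prime] : om p complexConjugation = -1 := by
  have hp : p.Prime := Fact.out
  apply Units.ext
  rw [om_eq_of p complexConjugation (p - 1) (fun z hz => ?_)]
  · rw [Nat.cast_sub hp.one_le]
    simp
  · rw [Fermat.Agent.ES.D.complexConjugation_rootOfUnity z p hp.ne_zero hz]
    have hz0 : z ≠ 0 := by
      rintro rfl
      rw [zero_pow hp.ne_zero] at hz
      exact zero_ne_one hz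
    apply inv_eq_of_mul_eq_one_right
    rw [← pow_succ', Nat.sub_add_cancel hp.one_le, hz]

theorem span_ne_top {p : ℕ} [Fact p.Prime] (W : WeierstrassCurve ℤ) (hΔ : W.Δ ≠ 0) (v : Tor W p) :
    Submodule.span (ZMod p) {v} ≠ ⊤ := by
  have hp : p.Prime := Fact.out
  intro htop
  have := finite_tor W hΔ p hp.pos
  have hsurj : Function.Surjective (fun a : ZMod p => a • v) := by
    intro x
    have hx : x ∈ Submodule.span (ZMod p) {v} := by rw [htop]; trivial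
    exact Submodule.mem_span_singleton.1 hx
  have h1 := Nat.card_le_card_of_surjective _ hsurj
  rw [card_tor W hΔ p hp.pos, Nat.card_zmod] at h1
  nlinarith [hp.two_le]

/-- the Galois element. -/
theorem exists_sigma {p : ℕ} [Fact p.Prime] (hp2 : p ≠ 2) (W : WeierstrassCurve ℤ) (hΔ : W.Δ ≠ 0)
    (hirr : GaloisRepIsIrreducible (K := Qb) ℚ (EQ W) p) {r : ℕ} (hr : r.Prime) (n : ℕ)
    (hn : n ≠ 0) (hpn : p ∣ n) :
    ∃ (β : Qb) (σ : GQ), β ^ p = (r : Qb) ∧ (∀ z : Qb, z ^ n = 1 → σ z = z) ∧ σ β ≠ β ∧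
      ¬ Unip (torRep W p σ) := by
  have hp : p.Prime := Fact.out
  obtain ⟨β, u₀, hβ, hu₀, hu₀β⟩ := exists_mover hp hp2 hr
  obtain ⟨t, ht⟩ := exists_CH hp2 W hΔ
  have := finite_tor W hΔ p hp.pos
  have hpz : ∀ z : Qb, z ^ p = 1 → z ^ n = 1 := by
    intro z hz
    obtain ⟨k, rfl⟩ := hpn
    rw [pow_mul, hz, one_pow]
  obtain ⟨σ, hσ1, hσ2, hσ3⟩ := exists_nonunip hp2 (torRep W p) (irr_torRep W p hirr)
    (span_ne_top W hΔ) (om p) t ht complexConjugation complexConjugation_mul_self (om_conj p)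
    (fixMu n) (fun a b z hz => comm_apply_root a b hn hz) (fun g => g β = β) u₀
    (fun z hz => hu₀ n hn z hz) hu₀β
    (fun u h hu huβ _ hh => not_fix_mul (hp.odd_of_ne_two hp2) hr.ne_zero hβ u h
      (fun z hz => hu z (hpz z hz)) huβ hh)
  exact ⟨β, σ, hβ, hσ1, hσ2, hσ3⟩

theorem pow_apply_of_fix (σ : GQ) {x : Qb} (h : σ x = x) (k : ℕ) : (σ ^ k) x = x := by
  induction k with
  | zero => rfl
  | succ k ih => rw [pow_succ, AlgEquiv.mul_apply, h, ih]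

/-- `Frob_l` is unipotent on `E[p]` if `l ≡ 1` and `a_l ≡ 2 mod p`. -/
theorem unip_frob {p : ℕ} [Fact p.Prime] (hp2 : p ≠ 2) (W : WeierstrassCurve ℤ) {ℓ : ℕ}
    (hℓ : ℓ.Prime) (hgood : W.IsGoodPrimeFor ℓ) (hℓp : ℓ ≠ p) (A : ValuationSubring Qb)
    (hA : A.LiesOverPrime ℓ) (φ : GQ) (hφ : A.IsFrobeniusAt φ ℓ) (h1 : ℓ ≡ 1 [MOD p])
    (h2 : (p : ℤ) ∣ W.apOfModel ℓ - 2) : Unip (torRep W p φ) := by
  have hp : p.Prime := Fact.out
  have hℓp' : ¬ ℓ ∣ p := fun h => hℓp ((Nat.prime_dvd_prime_iff_eq hℓ hp).mp h)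
  have hq : ∀ x : Tor W p, torRep W p φ (torRep W p φ x)
      - ((W.apOfModel ℓ : ℤ) : ZMod p) • torRep W p φ x + ((ℓ : ℕ) : ZMod p) • x = 0 := by
    intro x
    have h1 := Test_es W (hp.odd_of_ne_two hp2) hℓ hgood hℓp' A hA φ hφ x
    rw [AddMonoid.End.intCast_apply] at h1
    rw [intCast_zmod_smul, natCast_zmod_smul]
    exact h1
  have e1 : ((W.apOfModel ℓ : ℤ) : ZMod p) = 2 := by
    have := (ZMod.intCast_zmod_eq_zero_iff_dvd (W.apOfModel ℓ - 2) p).2 h2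
    rw [Int.cast_sub, sub_eq_zero] at this
    simpa using this
  have e2 : ((ℓ : ℕ) : ZMod p) = 1 := by
    have := (ZMod.natCast_eq_natCast_iff ℓ 1 p).2 h1
    simpa using this
  refine LinearMap.ext fun x => ?_
  have h3 := hq x
  rw [e1, e2, one_smul, two_smul] at h3
  simp only [Module.End.mul_apply, LinearMap.sub_apply, Module.End.one_apply, map_sub,
    LinearMap.zero_apply]
  rw [← h3]
  abel

/-- **the prime selection**, for the integral model. -/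
theorem exists_prime_model {p : ℕ} [Fact p.Prime] (hp2 : p ≠ 2) (W : WeierstrassCurve ℤ)
    (hΔ : W.Δ ≠ 0) (hirr : GaloisRepIsIrreducible (K := Qb) ℚ (EQ W) p) {r : ℕ} (hr : r.Prime)
    (m o : ℕ) (hm : 0 < m) (ho : 0 < o) (T : Finset ℕ) :
    ∃ l : ℕ, l.Prime ∧ l ∉ T ∧ l ≡ 1 [MOD m] ∧ p ∣ orderOf ((r : ZMod l) ^ (2 * o)) ∧
      ¬ (p : ℤ) ∣ W.apOfModel l - 2 := by
  classical
  have hp : p.Prime := Fact.out
  set n : ℕ := 2 * o * p * m with hn
  have hn0 : n ≠ 0 :=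
    mul_ne_zero (mul_ne_zero (mul_ne_zero two_ne_zero ho.ne') hp.ne_zero) hm.ne'
  have hpn : p ∣ n := ⟨2 * o * m, by rw [hn]; ring⟩
  obtain ⟨β, σ, hβ, hσζ, hσβ, hσU⟩ := exists_sigma hp2 W hΔ hirr hr n hn0 hpn
  have : NeZero n := ⟨hn0⟩
  obtain ⟨ζ, hζ⟩ := HasEnoughRootsOfUnity.exists_primitiveRoot Qb n
  obtain ⟨L₁, hL₁, hL₁fix⟩ := Test_finiteLevel W hΔ p hp.pos
  have hζint : IsIntegral ℚ ζ :=
    ⟨Polynomial.X ^ n - 1, Polynomial.monic_X_pow_sub_C 1 hn0, by simp [hζ.pow_eq_one]⟩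
  have hβint : IsIntegral ℚ β :=
    ⟨Polynomial.X ^ p - Polynomial.C (r : ℚ), Polynomial.monic_X_pow_sub_C _ hp.ne_zero,
      by simp [hβ]⟩
  have hL₂ : FiniteDimensional ℚ (IntermediateField.adjoin ℚ {ζ}) :=
    IntermediateField.adjoin.finiteDimensional hζint
  have hL₃ : FiniteDimensional ℚ (IntermediateField.adjoin ℚ {β}) :=
    IntermediateField.adjoin.finiteDimensional hβint
  obtain ⟨ℓ, A, φ, U, hℓ, hℓT, hA, hφ, hU, -, ⟨k, hk⟩, ⟨j, hj⟩⟩ :=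
    Fermat.Agent.FD.exists_frobenius_field
      (L₁ ⊔ (IntermediateField.adjoin ℚ {ζ} ⊔ IntermediateField.adjoin ℚ {β})) σ
      (T ∪ ({p, r} ∪ (n.primeFactors ∪ W.Δ.natAbs.primeFactors)))
  simp only [Finset.mem_union, Finset.mem_insert, Finset.mem_singleton, not_or] at hℓT
  obtain ⟨hℓT, ⟨hℓp, hℓr⟩, hℓn, hℓΔ⟩ := hℓT
  have hℓn' : ¬ ℓ ∣ n := fun h => hℓn (Nat.mem_primeFactors.2 ⟨hℓ, h, hn0⟩)
  have hgood : W.IsGoodPrimeFor ℓ := fun h =>
    hℓΔ (Nat.mem_primeFactors.2 ⟨hℓ, Int.natCast_dvd.1 h, Int.natAbs_ne_zero.2 hΔ⟩)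
  have hℓr' : ¬ ℓ ∣ r := fun h => hℓr ((Nat.prime_dvd_prime_iff_eq hℓ hr).mp h)
  have hUζ : ∀ u ∈ U, u ζ = ζ := fun u hu => hU u hu ζ
    ((le_sup_right : _ ≤ L₁ ⊔ _) ((le_sup_left : IntermediateField.adjoin ℚ {ζ} ≤ _)
      (IntermediateField.mem_adjoin_simple_self ℚ ζ)))
  have hUβ : ∀ u ∈ U, u β = β := fun u hu => hU u hu β
    ((le_sup_right : _ ≤ L₁ ⊔ _) ((le_sup_right : IntermediateField.adjoin ℚ {β} ≤ _)
      (IntermediateField.mem_adjoin_simple_self ℚ β)))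
  have hUρ : ∀ u ∈ U, torRep W p u = 1 := by
    intro u hu
    refine LinearMap.ext fun x => ?_
    exact DFunLike.congr_fun (hL₁fix u fun y hy => hU u hu y ((le_sup_left : L₁ ≤ _) hy)) x
  -- `φ` fixes `ζ`
  have h1 : φ ζ = ζ := by
    have e := hUζ _ hk
    rw [AlgEquiv.mul_apply, pow_apply_of_fix σ (hσζ ζ hζ.pow_eq_one) k] at e
    calc φ ζ = φ (φ⁻¹ ζ) := by rw [e]
      _ = ζ := by rw [← AlgEquiv.mul_apply, mul_inv_cancel, AlgEquiv.one_apply]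
  -- `φ` moves `β`
  have h2 : φ β ≠ β := by
    intro h
    have e := hUβ _ hj
    rw [AlgEquiv.mul_apply, pow_apply_of_fix φ h j] at e
    apply hσβ
    calc σ β = σ (σ⁻¹ β) := by rw [e]
      _ = β := by rw [← AlgEquiv.mul_apply, mul_inv_cancel, AlgEquiv.one_apply]
  -- `φ` is not unipotent
  have h3 : ¬ Unip (torRep W p φ) := by
    intro h
    apply hσU
    have e : φ ^ j = σ * (σ⁻¹ * φ ^ j) := by group
    have e2 : torRep W p σ = torRep W p φ ^ j := by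
      rw [← map_pow, e, map_mul, hUρ _ hj, mul_one]
    rw [e2]
    exact h.pow j
  have hmod : ℓ ≡ 1 [MOD n] := modEq_one_of_frob_fix A hℓ hA φ hφ hℓn' hζ h1
  have hdvd : n ∣ ℓ - 1 := (Nat.modEq_iff_dvd' hℓ.one_le).1 hmod.symm
  have hmodm : ℓ ≡ 1 [MOD m] := hmod.of_dvd ⟨2 * o * p, by rw [hn]; ring⟩
  have hmodp : ℓ ≡ 1 [MOD p] := hmod.of_dvd hpn
  have hne : (r : ZMod ℓ) ^ ((ℓ - 1) / p) ≠ 1 := fun h =>
    h2 (frob_fix_of_pow_eq_one A hℓ hA φ hφ hp hℓp hℓr' (hpn.trans hdvd) hβ h)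
  have hr0 : (r : ZMod ℓ) ≠ 0 := by
    rw [Ne, ZMod.natCast_eq_zero_iff]
    exact hℓr'
  refine ⟨ℓ, hℓ, hℓT, hmodm, dvd_orderOf hℓ hp ((Dvd.intro m hn.symm).trans hdvd) hr0 hne, ?_⟩
  intro h
  exact h3 (unip_frob hp2 W hℓ hgood hℓp A hA φ hφ hmodp h)

/-- **(IF-C) the prime selection.** -/
theorem exists_prime (E : WeierstrassCurve ℚ) [E.IsElliptic] {W : WeierstrassCurve ℤ}
    (hW : W.IsIntegralModelOf E) {p r : ℕ} (hp : p.Prime) (hp2 : p ≠ 2) (hr : r.Prime)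
    (hrp : r ≠ p) (hirr : GaloisRepIsIrreducible (K := AlgebraicClosure ℚ) ℚ E p)
    (m o : ℕ) (hm : 0 < m) (ho : 0 < o) (T : Finset ℕ) :
    ∃ l : ℕ, l.Prime ∧ l ∉ T ∧ l ≡ 1 [MOD m] ∧ p ∣ orderOf ((r : ZMod l) ^ (2 * o)) ∧
      ¬ (p : ℤ) ∣ W.apOfModel l - 2 := by
  have : Fact p.Prime := ⟨hp⟩
  obtain ⟨C, hC⟩ := hW
  have hΔ : W.Δ ≠ 0 := by
    intro h0
    have h2 : (C • E).Δ = 0 := by
      rw [hC, WeierstrassCurve.map_Δ, h0]
      simp
    rw [WeierstrassCurve.variableChange_Δ] at h2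
    rcases mul_eq_zero.1 h2 with h3 | h3
    · exact absurd h3 (pow_ne_zero _ (Units.ne_zero _))
    · exact E.isUnit_Δ.ne_zero h3
  have hirrW : GaloisRepIsIrreducible (K := Qb) ℚ (EQ W) p := by
    have h1 : GaloisRepIsIrreducible (K := Qb) ℚ (C • E).toAffine p :=
      (Fermat.Agent.S44.VC.irreducible_iff E C p).2 hirr
    rw [hC] at h1
    exact h1
  exact exists_prime_model hp2 W hΔ hirrW hr m o hm ho T

end Fermat.Agent.S41.Sel
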