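import Fermat.Agent.S44.Soft.AbsDefs

/-!
# S41 / Sel / Abs : the abstract group theory of the prime selection (block C of S41)

`ρ : G →* End_{F_p}(V)` irreducible, `V` finite, not of dimension one, with the relation (CH) `ρ g + om g • ρ g⁻¹ = t g • 1`, `c` an involution with `om c = -1`.
`G1 ⊴ G` contains all commutators.  `B : G → Prop` ("`g` fixes `β`").  Then some `σ ∈ G1` with `¬ B σ` is NOT unipotent on `V`.

MATHS.  Suppose every `σ ∈ G1` with `¬ B σ` is unipotent (`(X - 1)² = 0`, equivalently `X + X⁻¹ = 2`).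
(1) every `h ∈ G1` is unipotent: if `B h`, then `u₀ h`, `u₀ u₀ h` are unipotent and `H + H⁻¹ = 2 (UH + (UH)⁻¹) - (U²H + (U²H)⁻¹) = 4 - 2` because `U² = 2U - 1`, `U⁻² = 2U⁻¹ - 1`.
(2) `X ^ p = 1` for `X = ρ h`, so the image of `G1` is a `p`-group acting on the finite set `V`, `p ∣ #V`, `0` is fixed: there is a fixed vector `v ≠ 0`.
(3) the space of `G1`-fixed vectors is `G`-stable (`G1` normal), so it is `V`: `ρ = 1` on `G1`; `ρ(G)` is abelian.
(4) `C = ρ c`, `C² = 1`; `ker (C - 1)` is stable: `C = 1` or `C = -1`.  (CH) for `g` and `c g`: `X + om g X⁻¹ = t`, `X - om g X⁻¹ = ± t'`, so `2 X` is a scalar.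
(5) all `ρ g` are scalars, every line is stable: `V` is a line.  Contradiction.
-/

set_option autoImplicit false

namespace Fermat.Agent.S41.Sel

open Fermat.Agent.S44.Soft

variable {p : ℕ} [Fact p.Prime] {G V : Type*} [Group G] [AddCommGroup V] [Module (ZMod p) V]

/-- unipotent (of level two): `(f - 1)² = 0`. -/
def Unip (f : Module.End (ZMod p) V) : Prop := (f - 1) * (f - 1) = 0

/-- TASK S41/Sel-Abs-a.  `(X - 1)² = 0`, multiply by `X⁻¹` (`rho_mul_inv`, `rho_inv_mul`; `noncomm_ring` after expanding). -/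
theorem unip_iff_add_inv (ρ : G →* Module.End (ZMod p) V) (g : G) :
    Unip (ρ g) ↔ ρ g + ρ g⁻¹ = 2 := by
  have h1 := rho_mul_inv ρ g
  have h2 := rho_inv_mul ρ g
  unfold Unip
  generalize ρ g⁻¹ = Y at *
  generalize ρ g = X at *
  constructor
  · intro h
    have h3 : Y * ((X - 1) * (X - 1)) = (Y * X) * X - 2 * (Y * X) + Y := by noncomm_ring
    rw [h, mul_zero, h2] at h3
    have h4 : X + Y - 2 = 1 * X - 2 * 1 + Y := by
      rw [one_mul, mul_one]
      abel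
    exact sub_eq_zero.mp (h4.trans h3.symm)
  · intro h
    have h3 : (X - 1) * (X - 1) = X * (X + Y) - X * Y - 2 * X + 1 := by noncomm_ring
    rw [h3, h, h1]
    noncomm_ring

/-- TASK S41/Sel-Abs-a.  (1) of the header.  `ρ (u * h)⁻¹ = ρ h⁻¹ * ρ u⁻¹`; `U * U = 2 * U - 1`, `U⁻¹ * U⁻¹ = 2 * U⁻¹ - 1` from `unip_iff_add_inv`. -/
theorem unip_of_three (ρ : G →* Module.End (ZMod p) V) (u h : G) (hu : Unip (ρ u))
    (h1 : Unip (ρ (u * h))) (h2 : Unip (ρ (u * u * h))) : Unip (ρ h) := by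
  rw [unip_iff_add_inv] at h1 h2 ⊢
  have hu' := (unip_iff_add_inv ρ u).1 hu
  have e1 : ρ (u * h)⁻¹ = ρ h⁻¹ * ρ u⁻¹ := by rw [mul_inv_rev, map_mul]
  have e2 : ρ (u * u * h)⁻¹ = ρ h⁻¹ * (ρ u⁻¹ * ρ u⁻¹) := by
    rw [mul_inv_rev, mul_inv_rev, map_mul, map_mul]
  rw [map_mul, e1] at h1
  rw [map_mul, map_mul, e2] at h2
  have hu0 : (ρ u - 1) * (ρ u - 1) = 0 := hu
  have hY : ρ u⁻¹ = 2 - ρ u := eq_sub_of_add_eq' hu'
  generalize ρ h⁻¹ = H' at *
  generalize ρ h = H at *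
  generalize ρ u⁻¹ = U' at *
  generalize ρ u = U at *
  subst hY
  have hUU : U * U = 2 * U - 1 := by
    have h3 : U * U - (2 * U - 1) = (U - 1) * (U - 1) := by noncomm_ring
    exact sub_eq_zero.mp (h3.trans hu0)
  have hVV : (2 - U) * (2 - U) = 2 * (2 - U) - 1 := by
    have h3 : (2 - U) * (2 - U) - (2 * (2 - U) - 1) = (U - 1) * (U - 1) := by noncomm_ring
    exact sub_eq_zero.mp (h3.trans hu0)
  rw [hUU, hVV] at h2
  have h5 : H + H' = 2 * (U * H + H' * (2 - U)) - ((2 * U - 1) * H + H' * (2 * (2 - U) - 1)) := by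
    noncomm_ring
  rw [h5, h1, h2]
  noncomm_ring

/-- helper (TASK S41/Sel-Abs-a): `f ^ j = 1 + j (f - 1)` for a unipotent `f`. -/
theorem SelAbsa_pow_eq {f : Module.End (ZMod p) V} (h : Unip f) (j : ℕ) :
    f ^ j = 1 + j • (f - 1) := by
  induction j with
  | zero => simp
  | succ j ih =>
    have h' : (f - 1) * (f - 1) = 0 := h
    have hf : f = 1 + (f - 1) := by abel
    rw [pow_succ, ih]
    calc (1 + j • (f - 1)) * f = (1 + j • (f - 1)) * (1 + (f - 1)) := by rw [← hf]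
      _ = 1 + (f - 1) + j • (f - 1) + j • ((f - 1) * (f - 1)) := by
          rw [add_mul, mul_add, mul_add, one_mul, one_mul, mul_one, smul_mul_assoc]
          abel
      _ = 1 + (j + 1) • (f - 1) := by
          rw [h', smul_zero, add_zero, add_smul, one_smul]
          abel

/-- TASK S41/Sel-Abs-a.  `f ^ p - 1 = (f - 1) ^ p` (`sub_pow_char_of_commute`, `CharP (Module.End (ZMod p) V) p` if `V` is nontrivial; if `V` is trivial everything is equal), `p ≥ 2`. -/
theorem Unip.pow_p {f : Module.End (ZMod p) V} (h : Unip f) : f ^ p = 1 := by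
  rw [SelAbsa_pow_eq h p, ← Nat.cast_smul_eq_nsmul (ZMod p) p (f - 1), CharP.cast_eq_zero,
    zero_smul, add_zero]

/-- TASK S41/Sel-Abs-a.  `f ^ j - 1 = (f - 1) * ∑ f ^ i` (`Commute.mul_geom_sum` / `mul_geom_sum`, or induction on `j`: `f^(j+1) - 1 = f^j (f - 1) + (f^j - 1)`, all commute with `f`). -/
theorem Unip.pow {f : Module.End (ZMod p) V} (h : Unip f) (j : ℕ) : Unip (f ^ j) := by
  have h' : (f - 1) * (f - 1) = 0 := h
  unfold Unip
  rw [SelAbsa_pow_eq h j, add_sub_cancel_left, smul_mul_assoc, mul_smul_comm, h', smul_zero,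
    smul_zero]

/-- TASK S41/Sel-Abs-b.  (2) of the header.  `P := ((ρ.toHomUnits).comp G1.subtype).range : Subgroup (Module.End (ZMod p) V)ˣ` acts on `V`; it is a `p`-group (`IsPGroup.of_...`: `g ^ p ^ 1 = 1` by `Unip.pow_p`, `Units.ext`);
`IsPGroup.exists_fixed_point_of_prime_dvd_card_of_fixed_point` with `a = 0`;  `p ∣ Nat.card V`: `V` is a nontrivial finite `ZMod p`-vector space (`Module.card_eq_pow_finrank` / `card_eq_pow_finrank`, `Module.finrank_pos`), or Cauchy-free: `v ≠ 0` has `addOrderOf v = p`, `addOrderOf_dvd_natCard`. -/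
theorem exists_fixed [Finite V] [Nontrivial V] (ρ : G →* Module.End (ZMod p) V) (G1 : Subgroup G)
    (h : ∀ g ∈ G1, Unip (ρ g)) : ∃ v : V, v ≠ 0 ∧ ∀ g ∈ G1, ρ g v = v := by
  classical
  let φ : G1 →* (Module.End (ZMod p) V)ˣ := (ρ.toHomUnits).comp G1.subtype
  have hP : IsPGroup p φ.range := by
    rintro ⟨_, ⟨g, rfl⟩⟩
    refine ⟨1, ?_⟩
    apply Subtype.ext
    apply Units.ext
    rw [pow_one]
    show (ρ (g : G)) ^ p = 1
    exact (h g g.2).pow_p
  have hcard : p ∣ Nat.card V := by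
    obtain ⟨v, hv⟩ := exists_ne (0 : V)
    have h1 : p • v = 0 := by
      rw [← Nat.cast_smul_eq_nsmul (ZMod p) p v, CharP.cast_eq_zero, zero_smul]
    rw [← addOrderOf_eq_prime h1 hv]
    exact addOrderOf_dvd_natCard v
  have h0 : (0 : V) ∈ MulAction.fixedPoints φ.range V := by
    rintro ⟨_, ⟨g, rfl⟩⟩
    show ρ (g : G) 0 = 0
    exact map_zero _
  obtain ⟨b, hb, hb0⟩ := hP.exists_fixed_point_of_prime_dvd_card_of_fixed_point V hcard h0
  refine ⟨b, hb0.symm, fun g hg => ?_⟩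
  exact hb ⟨φ ⟨g, hg⟩, ⟨⟨g, hg⟩, rfl⟩⟩

/-- TASK S41/Sel-Abs-b.  (3) of the header.  The submodule `{v | ∀ g ∈ G1, ρ g v = v}` is `Stable` (`ρ g (ρ a v) = ρ a (ρ (a⁻¹ g a) v)`, `Subgroup.Normal.conj_mem`), `≠ ⊥` by `exists_fixed`, so `= ⊤` (`hirr.2`). -/
theorem eq_one_of_unip [Finite V] (ρ : G →* Module.End (ZMod p) V) (hirr : Irr ρ) (G1 : Subgroup G)
    [G1.Normal] (h : ∀ g ∈ G1, Unip (ρ g)) : ∀ g ∈ G1, ρ g = 1 := by
  have hnt : Nontrivial V := hirr.1
  let U : Submodule (ZMod p) V :=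
    { carrier := {v | ∀ g ∈ G1, ρ g v = v}
      add_mem' := by
        intro a b ha hb g hg
        rw [map_add, ha g hg, hb g hg]
      zero_mem' := fun g _ => map_zero _
      smul_mem' := by
        intro c a ha g hg
        rw [map_smul, ha g hg] }
  have hU : Stable ρ U := by
    intro a v hv g hg
    have h1 : g * a = a * (a⁻¹ * g * a) := by group
    have h2 : a⁻¹ * g * a ∈ G1 := Subgroup.Normal.conj_mem' inferInstance g hg a
    rw [← Module.End.mul_apply, ← map_mul, h1, map_mul, Module.End.mul_apply, hv _ h2]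
  obtain ⟨v, hv0, hv⟩ := exists_fixed ρ G1 h
  rcases hirr.2 U hU with hbot | htop
  · exfalso
    apply hv0
    have : v ∈ U := hv
    rwa [hbot, Submodule.mem_bot] at this
  · intro g hg
    ext x
    have : x ∈ U := by rw [htop]; trivial
    exact this g hg

/-- TASK S41/Sel-Abs-c.  (4) of the header.  `stable_ker_of_intertwine ρ (ρ c - 1)` (everything commutes).  If `ker = ⊤`: `C = 1`.  If `ker = ⊥`: `(C - 1) ((C + 1) x) = 0` so `C = -1`.
`ε := ±1`, `ρ (c * g) = ε • ρ g`, `ρ (c * g)⁻¹ = ε • ρ g⁻¹`, `om (c * g) = - om g`.  `hCH g`, `hCH (c * g)`: `(2 : ZMod p) • ρ g = (t g + ε * t (c * g)) • 1`, `(2 : ZMod p) ≠ 0`. -/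
theorem isScalar_of_abelian (hp2 : p ≠ 2) (ρ : G →* Module.End (ZMod p) V) (hirr : Irr ρ)
    (hab : ∀ a b : G, ρ a * ρ b = ρ b * ρ a)
    (om : G →* (ZMod p)ˣ) (t : G → ZMod p) (hCH : CH ρ om t) (c : G) (hc : c * c = 1)
    (homc : om c = -1) (g : G) : IsScalar (ρ g) := by
  have hp : p.Prime := Fact.out
  have h2 : (2 : ZMod p) ≠ 0 := by
    intro h
    have h3 : ((2 : ℕ) : ZMod p) = 0 := by exact_mod_cast h
    rw [ZMod.natCast_eq_zero_iff] at h3
    exact hp2 ((Nat.prime_dvd_prime_iff_eq hp Nat.prime_two).1 h3)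
  have hCC : ρ c * ρ c = 1 := by rw [← map_mul, hc, map_one]
  -- `ρ c = ε`
  have hε : ∃ ε : ZMod p, (ε = 1 ∨ ε = -1) ∧ ρ c = ε • (1 : Module.End (ZMod p) V) := by
    have hst : Stable ρ (LinearMap.ker (ρ c - 1)) := by
      apply stable_ker_of_intertwine
      intro a
      refine ⟨ρ a, ?_⟩
      rw [sub_mul, mul_sub, hab c a, one_mul, mul_one]
    rcases hirr.2 _ hst with h | h
    · refine ⟨-1, Or.inr rfl, ?_⟩
      refine LinearMap.ext fun x => ?_
      have hx : (ρ c + 1) x ∈ LinearMap.ker (ρ c - 1) := by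
        rw [LinearMap.mem_ker, ← Module.End.mul_apply]
        have : (ρ c - 1) * (ρ c + 1) = 0 := by
          rw [sub_mul, mul_add, one_mul, mul_one, hCC]
          abel
        rw [this, LinearMap.zero_apply]
      rw [h, Submodule.mem_bot, LinearMap.add_apply, Module.End.one_apply] at hx
      rw [LinearMap.smul_apply, Module.End.one_apply, neg_smul, one_smul]
      exact eq_neg_of_add_eq_zero_left hx
    · refine ⟨1, Or.inl rfl, ?_⟩
      refine LinearMap.ext fun x => ?_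
      have hx : x ∈ LinearMap.ker (ρ c - 1) := by rw [h]; trivial
      rw [LinearMap.mem_ker, LinearMap.sub_apply, Module.End.one_apply, sub_eq_zero] at hx
      rw [hx, one_smul, Module.End.one_apply]
  obtain ⟨ε, hε1, hεc⟩ := hε
  have hεε : ε * ε = 1 := by rcases hε1 with rfl | rfl <;> ring
  have e1 : ρ (c * g) = ε • ρ g := by rw [map_mul, hεc, smul_mul_assoc, one_mul]
  have hcinv : c⁻¹ = c := inv_eq_of_mul_eq_one_right hc
  have e2 : ρ (c * g)⁻¹ = ε • ρ g⁻¹ := by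
    rw [mul_inv_rev, hcinv, map_mul, hεc, mul_smul_comm, mul_one]
  have e3 : ((om (c * g) : (ZMod p)ˣ) : ZMod p) = - ((om g : (ZMod p)ˣ) : ZMod p) := by
    rw [map_mul, homc]
    simp
  have k1 := hCH g
  have k2 := hCH (c * g)
  rw [e1, e2, e3] at k2
  refine ⟨2⁻¹ * (t g + ε * t (c * g)), ?_⟩
  have k3 : (2 : ZMod p) • ρ g = (t g + ε * t (c * g)) • (1 : Module.End (ZMod p) V) := by
    have k4 : ε • (ε • ρ g + -((om g : (ZMod p)ˣ) : ZMod p) • ε • ρ g⁻¹)
        = ρ g - ((om g : (ZMod p)ˣ) : ZMod p) • ρ g⁻¹ := by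
      rw [smul_add, smul_smul, hεε, one_smul, smul_smul, smul_smul,
        show ε * -((om g : (ZMod p)ˣ) : ZMod p) * ε = -((om g : (ZMod p)ˣ) : ZMod p) * (ε * ε) by ring,
        hεε, mul_one, neg_smul, sub_eq_add_neg]
    rw [add_smul, mul_smul, ← k1, ← k2, k4, two_smul]
    abel
  rw [mul_smul, ← k3, smul_smul, inv_mul_cancel₀ h2, one_smul]

/-- **The abstract selection.**  TASK S41/Sel-Abs-d.  By contradiction (`by_contra`, `push_neg`): header (1) (`unip_of_three` with `u = u₀`, `hB`), `eq_one_of_unip`;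
`hab`: `a * b = b * a * (a⁻¹ * b⁻¹ * a * b)` (`group`); `isScalar_of_abelian`; pick `v ≠ 0` (`hirr.1`): `span {v}` is `Stable` (scalars), `≠ ⊥`, so `= ⊤`: contradiction with `hdim`. -/
theorem exists_nonunip (hp2 : p ≠ 2) [Finite V] (ρ : G →* Module.End (ZMod p) V) (hirr : Irr ρ)
    (hdim : ∀ v : V, Submodule.span (ZMod p) {v} ≠ ⊤)
    (om : G →* (ZMod p)ˣ) (t : G → ZMod p) (hCH : CH ρ om t) (c : G) (hc : c * c = 1)
    (homc : om c = -1) (G1 : Subgroup G) [G1.Normal]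
    (hcomm : ∀ a b : G, a⁻¹ * b⁻¹ * a * b ∈ G1)
    (B : G → Prop) (u₀ : G) (hu₀ : u₀ ∈ G1) (hBu₀ : ¬ B u₀)
    (hB : ∀ u h : G, u ∈ G1 → ¬ B u → h ∈ G1 → B h → ¬ B (u * h) ∧ ¬ B (u * u * h)) :
    ∃ σ ∈ G1, ¬ B σ ∧ ¬ Unip (ρ σ) := by
  by_contra hcon
  have hun : ∀ σ ∈ G1, ¬ B σ → Unip (ρ σ) := by
    intro σ hσ hBσ
    by_contra hU
    exact hcon ⟨σ, hσ, hBσ, hU⟩
  -- (1) everything in `G1` is unipotent
  have hall : ∀ h ∈ G1, Unip (ρ h) := by
    intro h hh
    by_cases hBh : B h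
    · obtain ⟨h1, h2⟩ := hB u₀ h hu₀ hBu₀ hh hBh
      exact unip_of_three ρ u₀ h (hun u₀ hu₀ hBu₀)
        (hun _ (G1.mul_mem hu₀ hh) h1) (hun _ (G1.mul_mem (G1.mul_mem hu₀ hu₀) hh) h2)
    · exact hun h hh hBh
  -- (3) `ρ = 1` on `G1`
  have hone := eq_one_of_unip ρ hirr G1 hall
  have hab : ∀ a b : G, ρ a * ρ b = ρ b * ρ a := by
    intro a b
    have h1 : a * b = b * a * (a⁻¹ * b⁻¹ * a * b) := by group
    rw [← map_mul, h1, map_mul, hone _ (hcomm a b), mul_one, map_mul]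
  have hsc : ∀ g : G, IsScalar (ρ g) :=
    fun g => isScalar_of_abelian hp2 ρ hirr hab om t hCH c hc homc g
  obtain ⟨v, hv⟩ := @exists_ne V hirr.1 0
  have hst : Stable ρ (Submodule.span (ZMod p) {v}) := by
    intro g x hx
    obtain ⟨a, ha⟩ := hsc g
    rw [ha, LinearMap.smul_apply, Module.End.one_apply]
    exact Submodule.smul_mem _ a hx
  rcases hirr.2 _ hst with h0 | h0
  · apply hv
    have h1 : v ∈ Submodule.span (ZMod p) {v} := Submodule.mem_span_singleton_self v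
    rw [h0] at h1
    exact h1
  · exact hdim v h0

end Fermat.Agent.S41.Sel
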